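import Mathlib

/-!
# Level one: holomorphic `SL(2,ℤ)`-invariant functions with a pole of order `≤ M` at `i∞`
are polynomials of degree `≤ M` in `j = E₄³/Δ` (helper12, slice (A2) of the S23 plan).
-/

set_option autoImplicit false

noncomputable section

open UpperHalfPlane ModularForm SlashInvariantForm SlashInvariantFormClass ModularFormClass
  CuspFormClass MatrixGroups OnePoint Filter EisensteinSeries Asymptotics

open scoped Topology Manifold

namespace H12S23

/-- The (unnormalised) Klein invariant `j = E₄³ / Δ` on the upper half plane. -/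
def jfun (τ : ℍ) : ℂ := E₄ τ ^ 3 / ModularForm.discriminant τ

/-- `E₄ ^ (3 * M)` as a modular form of weight `12 * M`. -/
def e4pow (M : ℕ) : ModularForm 𝒮ℒ (12 * (M : ℤ)) :=
  ModularForm.mcast (by push_cast; ring) (E₄.pow (3 * M))

lemma e4pow_apply (M : ℕ) (τ : ℍ) : e4pow M τ = E₄ τ ^ (3 * M) := by
  have h := congrFun (ModularForm.coe_pow E₄ (3 * M)) τ
  simpa [e4pow, ModularForm.coe_mcast] using h

lemma e4pow_qExpansion_coeff_zero (M : ℕ) : (qExpansion 1 (e4pow M)).coeff 0 = 1 := by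
  have h : (e4pow M : ℍ → ℂ) = (E₄.pow (3 * M) : ℍ → ℂ) := by
    simp [e4pow, ModularForm.coe_mcast]
  rw [h, ModularForm.qExpansion_pow one_pos one_mem_strictPeriods_SL]
  have h4 : PowerSeries.constantCoeff (qExpansion 1 E₄) = 1 := by
    have := E_qExpansion_coeff_zero (k := 4) (by norm_num) ⟨2, rfl⟩
    simpa using this
  rw [PowerSeries.coeff_zero_eq_constantCoeff_apply, map_pow, h4, one_pow]

/-- **Key induction**: every level one modular form of weight `12 M` is `Δ^M · P(j)` with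
`deg P ≤ M`. -/
theorem exists_poly_of_modularForm (M : ℕ) (G : ModularForm 𝒮ℒ (12 * (M : ℤ))) :
    ∃ P : Polynomial ℂ, P.natDegree ≤ M ∧
      ∀ τ : ℍ, G τ = ModularForm.discriminant τ ^ M * P.eval (jfun τ) := by
  induction M with
  | zero =>
    have hG : ModularFormClass (ModularForm 𝒮ℒ (12 * ((0 : ℕ) : ℤ))) 𝒮ℒ 0 := by
      simpa using (inferInstance : ModularFormClass (ModularForm 𝒮ℒ (12 * ((0 : ℕ) : ℤ))) 𝒮ℒ
        (12 * ((0 : ℕ) : ℤ)))
    obtain ⟨c, hc⟩ := levelOne_weight_zero_const (F := ModularForm 𝒮ℒ (12 * ((0 : ℕ) : ℤ))) G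
    refine ⟨Polynomial.C c, by simp, fun τ => ?_⟩
    simp [hc]
  | succ M ih =>
    set c : ℂ := (qExpansion 1 G).coeff 0 with hc
    set G₁ : ModularForm 𝒮ℒ (12 * ((M + 1 : ℕ) : ℤ)) := G - c • e4pow (M + 1) with hG₁
    have h0 : (qExpansion 1 G₁).coeff 0 = 0 := by
      have : (G₁ : ℍ → ℂ) = (G : ℍ → ℂ) - (c • e4pow (M + 1) : ModularForm 𝒮ℒ _) := rfl
      rw [this, ModularForm.qExpansion_sub one_pos one_mem_strictPeriods_SL]
      have h2 : ((c • e4pow (M + 1) : ModularForm 𝒮ℒ (12 * ((M + 1 : ℕ) : ℤ))) : ℍ → ℂ) =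
          c • (e4pow (M + 1) : ℍ → ℂ) := rfl
      rw [h2, ModularForm.qExpansion_smul one_pos one_mem_strictPeriods_SL, map_sub, _root_.map_smul,
        e4pow_qExpansion_coeff_zero, smul_eq_mul, mul_one, sub_self]
    set H : ModularForm 𝒮ℒ (12 * (M : ℤ)) :=
      ModularForm.mcast (by push_cast; ring) (CuspForm.discriminantEquiv (toCuspForm G₁ h0)) with hH
    obtain ⟨P', hP', hPe⟩ := ih H
    refine ⟨Polynomial.C c * Polynomial.X ^ (M + 1) + P', ?_, fun τ => ?_⟩
    · refine (Polynomial.natDegree_add_le _ _).trans (max_le ?_ (hP'.trans (Nat.le_succ M)))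
      exact (Polynomial.natDegree_C_mul_le _ _).trans (Polynomial.natDegree_X_pow_le _)
    · have hΔ : ModularForm.discriminant τ ≠ 0 := discriminant_ne_zero τ
      have hHτ : H τ = G₁ τ / ModularForm.discriminant τ := by
        simp [hH, ModularForm.coe_mcast, CuspForm.discriminantEquiv_apply, toCuspForm_apply]
      have hG₁τ : G₁ τ = G τ - c * E₄ τ ^ (3 * (M + 1)) := by
        rw [← e4pow_apply]; rfl
      have hih := hPe τ
      rw [hHτ, hG₁τ] at hih
      simp only [Polynomial.eval_add, Polynomial.eval_mul, Polynomial.eval_C, Polynomial.eval_pow,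
        Polynomial.eval_X, jfun]
      have hj : (E₄ τ ^ 3 / ModularForm.discriminant τ) ^ (M + 1) * ModularForm.discriminant τ ^ (M + 1)
          = E₄ τ ^ (3 * (M + 1)) := by
        rw [← mul_pow, div_mul_cancel₀ _ hΔ, ← pow_mul]
      have hih' : G τ - c * E₄ τ ^ (3 * (M + 1)) =
          ModularForm.discriminant τ ^ (M + 1) * Polynomial.eval (jfun τ) P' := by
        rw [div_eq_iff hΔ] at hih
        rw [hih, pow_succ]; ring
      have : G τ = c * E₄ τ ^ (3 * (M + 1)) +
          ModularForm.discriminant τ ^ (M + 1) * Polynomial.eval (jfun τ) P' := by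
        linear_combination hih'
      rw [this, ← hj]
      simp only [jfun]
      ring

/-- `Δ ^ M` as a modular form of weight `12 * M`. -/
def deltaPow (M : ℕ) : ModularForm 𝒮ℒ (12 * (M : ℤ)) :=
  ModularForm.mcast (by ring) ((CuspForm.discriminant : ModularForm 𝒮ℒ 12).pow M)

lemma deltaPow_apply (M : ℕ) (τ : ℍ) : deltaPow M τ = ModularForm.discriminant τ ^ M := by
  have h := congrFun (ModularForm.coe_pow (CuspForm.discriminant : ModularForm 𝒮ℒ 12) M) τ
  simp [deltaPow, ModularForm.coe_mcast] at h ⊢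

lemma coe_deltaPow (M : ℕ) :
    (deltaPow M : ℍ → ℂ) = fun τ => ModularForm.discriminant τ ^ M :=
  funext (deltaPow_apply M)

/-- **(A2)** A holomorphic `SL(2,ℤ)`-invariant function `F` on `ℍ` such that `F · Δ^M` is bounded
at `i∞` is a polynomial of degree `≤ M` in `j`. -/
theorem exists_poly_of_holo_invariant (M : ℕ) (F : ℍ → ℂ) (hF : MDiff F)
    (hinv : ∀ γ : SL(2, ℤ), F ∣[(0 : ℤ)] γ = F)
    (hbdd : IsBoundedAtImInfty (fun τ => F τ * ModularForm.discriminant τ ^ M)) :
    ∃ P : Polynomial ℂ, P.natDegree ≤ M ∧ ∀ τ : ℍ, F τ = P.eval (jfun τ) := by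
  have hg : (fun τ => F τ * ModularForm.discriminant τ ^ M) = F * (deltaPow M : ℍ → ℂ) := by
    rw [coe_deltaPow]; rfl
  have hslash : ∀ γ : SL(2, ℤ),
      (F * (deltaPow M : ℍ → ℂ)) ∣[(12 * (M : ℤ))] γ = F * (deltaPow M : ℍ → ℂ) := by
    intro γ
    have h1 := mul_slash_SL2 0 (12 * (M : ℤ)) γ F (deltaPow M : ℍ → ℂ)
    rw [zero_add] at h1
    rw [h1, hinv γ]
    congr 1
    have hγ : (γ : GL (Fin 2) ℝ) ∈ 𝒮ℒ := ⟨γ, rfl⟩
    have := SlashInvariantFormClass.slash_action_eq (deltaPow M) _ hγ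
    simpa [SL_slash] using this
  let G : ModularForm 𝒮ℒ (12 * (M : ℤ)) :=
    { toFun := F * (deltaPow M : ℍ → ℂ)
      slash_action_eq' := fun _ ⟨γ, hγ⟩ => hγ ▸ hslash γ
      holo' := hF.mul (deltaPow M).holo'
      bdd_at_cusps' := by
        intro c hc
        rw [isBoundedAt_iff_forall_SL2Z hc]
        intro γ _
        rw [hslash γ, ← hg]
        exact hbdd }
  obtain ⟨P, hP, hPe⟩ := exists_poly_of_modularForm M G
  refine ⟨P, hP, fun τ => ?_⟩
  have h := hPe τ
  have hGτ : G τ = F τ * ModularForm.discriminant τ ^ M := by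
    show (F * (deltaPow M : ℍ → ℂ)) τ = _
    rw [Pi.mul_apply, deltaPow_apply]
  rw [hGτ, mul_comm] at h
  exact mul_left_cancel₀ (pow_ne_zero M (discriminant_ne_zero τ)) h

end H12S23
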